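import Fermat.Agent.RT.Lift59.AtP.Mat
import Fermat.Agent.RT.MazurP.LocalE

/-!
# Frobenius at a multiplicative place, on `E[p]`

The square of a decomposition element preserves the components of the special fibre, as the
residual automorphism permutes the two tangents at the node. So the square of a Frobenius element
fixing `μ_p` is unipotent on `E[p]`.
-/

set_option autoImplicit false

noncomputable section

open WeierstrassCurve WeierstrassCurve.Affine
open scoped WeierstrassCurve.Affine Pointwise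

namespace Fermat.Agent.RT.Lift59.UnitRoot

open Fermat.Agent.Arith Fermat.Agent.EC.Reduction Fermat.Agent.EC.Multiplicative
open Fermat.Agent.EC.Rep

section Components

universe r s v

variable {R : Type r} {S : Type s} {L : Type v} [CommRing R] [Field S] [Field L]
  [Algebra R S] [Algebra R L] [Algebra S L] [IsScalarTower R S L]
  {W' : Affine R} {A : ValuationSubring L} {V : Affine (IsLocalRing.ResidueField A)}
  {σ : L ≃ₐ[S] L} [DecidableEq L] [Algebra.IsAlgebraic S L]
  [DecidableEq (IsLocalRing.ResidueField A)]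

/-- The square of an automorphism of the valued field moves every point within its component. -/
theorem inE0_sq_smul_sub (N : Node A (W'⁄L) V) (hσ : σ • A = A)
    {φ : IsLocalRing.ResidueField A →+* IsLocalRing.ResidueField A}
    (hφ : ∀ x ∈ A, res A (σ x) = φ (res A x)) {P₀ : (W'⁄L).Point} (hP₀ : ¬ InE0 A V P₀)
    (P : (W'⁄L).Point) : InE0 A V ((σ * σ) • P - P) := by
  have hσσ : (σ * σ) • A = A := by rw [mul_smul, hσ, hσ]
  have hres : res A (σ N.r) = res A N.r := by
    match P₀ with
    | .zero => exact absurd trivial hP₀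
    | .some x y h =>
      have h1 := (N.not_inE0_iff _).mp hP₀
      obtain ⟨h', e⟩ := smul_some (σ := σ) h
      have h2 := (N.not_inE0_iff _).mp
        (fun hi => hP₀ ((N.red.inE0_smul_iff hσ hφ).mp hi) :
          ¬ InE0 A V (σ • Point.some x y h))
      rw [e] at h2
      rw [Node.atNode_some] at h1 h2
      have mem : ∀ {z : L}, A.valuation (z - N.r) < 1 → z ∈ A ∧ res A z = res A N.r := by
        intro z hz
        have hm : z - N.r ∈ A := (A.valuation_le_one_iff _).mp hz.le
        have hzA : z ∈ A := by simpa using add_mem hm N.hr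
        refine ⟨hzA, sub_eq_zero.mp ?_⟩
        rw [← res_sub hzA N.hr, res_eq_zero_iff hm, ValuationSubring.mem_nonunits_iff]
        exact hz
      obtain ⟨hx, hxr⟩ := mem h1.1
      rw [hφ _ N.hr, ← hxr, ← hφ _ hx, (mem h2.1).2, hxr]
  obtain ⟨hr, ht⟩ := N.map_rt_eq hσ hres
  have ha : σ (σ N.a) = N.a := by
    rcases N.map_ab hσ hr with h | h
    · rw [h.1, h.1]
    · rw [h.1, h.2]
  have hr2 : (σ * σ) N.r = N.r := by rw [AlgEquiv.mul_apply, hr, hr]
  have ht2 : (σ * σ) N.t = N.t := by rw [AlgEquiv.mul_apply, ht, ht]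
  have ha2 : (σ * σ) N.a = N.a := ha
  have hcomp : N.comp ((σ * σ) • P) = N.comp P := by
    match P with
    | .zero => rfl
    | .some x y h =>
      obtain ⟨h', e⟩ := smul_some (σ := σ * σ) h
      rw [e]
      have ex : (σ * σ) x - N.r = (σ * σ) (x - N.r) := by rw [map_sub, hr2]
      have ey : (σ * σ) y - N.t = (σ * σ) (y - N.t) := by rw [map_sub, ht2]
      have hiff : N.AtNode (Point.some _ _ h') ↔ N.AtNode (Point.some x y h) := by
        rw [Node.atNode_some, Node.atNode_some, ex, ey, valuation_map_eq hσσ, valuation_map_eq hσσ]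
      by_cases hP : N.AtNode (Point.some x y h)
      · rw [N.comp_of_atNode hP, N.comp_of_atNode (hiff.mpr hP), ex, ey]
        congr 1
        have e' : (σ * σ) (y - N.t) - N.a * (σ * σ) (x - N.r) =
            (σ * σ) (y - N.t - N.a * (x - N.r)) := by
          rw [map_sub (σ * σ) (y - N.t), map_mul, ha2]
        rw [compVal, compVal, e', valuation_map_eq hσσ, valuation_map_eq hσσ]
      · rw [N.comp_of_not_atNode hP, N.comp_of_not_atNode (mt hiff.mp hP)]
  rw [← N.comp_eq_zero_iff, ← N.compHom_apply, map_sub, N.compHom_apply, N.compHom_apply, hcomp,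
    sub_self]

end Components

variable {A : ValuationSubring QBar} {W : WeierstrassCurve ℤ} {p : ℕ} [Fact p.Prime]

/-- The square of a Frobenius element fixing `μ_p` is unipotent on `E[p]`. -/
theorem matP_sq_of_frobenius (hA : A.LiesOverPrime p) (hp2 : p ≠ 2) (hΔ : W.Δ ≠ 0)
    (hdvd : (p : ℤ) ∣ W.Δ) (hc₄ : ¬ (p : ℤ) ∣ W.c₄) {σ : GQ} (hσ : A.IsFrobeniusAt σ p)
    (hχ : cyclotomicHom p σ = 1) :
    (AtP.matP W p hΔ (σ * σ)).trace = 2 ∧ (AtP.matP W p hΔ (σ * σ)).det = 1 := by
  classical
  have hp : p.Prime := Fact.out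
  have : CharP (IsLocalRing.ResidueField A) p := residueField_charP hA hp
  set V := W.map (Int.castRingHom (IsLocalRing.ResidueField A)) with hV
  obtain ⟨R, htor, -, hR1, hR0, hgen⟩ := exists_inE0_system hA hp hp2 hΔ hdvd hc₄
  obtain ⟨N, -⟩ := exists_node_int hA hp hΔ hdvd hc₄
  have hRtor : (p : ℤ) • R 1 = 0 := by simpa using htor 1
  obtain ⟨S, hS, hS1⟩ := exists_torsion_not_inE1 hA hp hp2 hΔ hdvd hc₄
  have hStor : (p : ℤ) • S = 0 := by rw [natCast_zsmul]; exact hS
  have hS0 : ¬ InE0 A V S := fun h => hS1 (inE1_of_pow_nsmul_eq_zero N hA hp h (n := 1)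
    (by rw [pow_one]; exact hS))
  obtain ⟨hσA, hσres⟩ := res_frobenius hσ
  have hφ : ∀ x ∈ A, res A (σ x) = frobenius (IsLocalRing.ResidueField A) p (res A x) :=
    fun x hx => by rw [frobenius_def, hσres x hx]
  have hsub : ∀ P : EC.AtP.PointQBar W, InE0 A V ((σ * σ) • P - P) :=
    inE0_sq_smul_sub N hσA hφ hS0
  obtain ⟨a, ha⟩ := hgen 1 ((σ * σ) • R 1)
    (by rw [pow_one, ← MazurP.smul_zsmul_point, hRtor, MazurP.smul_zero_point]) (by
      have h := add_mem (show _ ∈ N.red.E0 from hsub (R 1)) (show R 1 ∈ N.red.E0 from hR0 1)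
      rwa [sub_add_cancel] at h)
  obtain ⟨c, hc⟩ := hgen 1 ((σ * σ) • S - S)
    (by rw [pow_one, zsmul_sub, ← MazurP.smul_zsmul_point, hStor, MazurP.smul_zero_point, sub_zero])
    (hsub S)
  let r : (residualRep W p hΔ).V := ⟨R 1, (Submodule.mem_torsionBy_iff _ _).mpr hRtor⟩
  let s : (residualRep W p hΔ).V := ⟨S, (Submodule.mem_torsionBy_iff _ _).mpr hStor⟩
  have hr : r ≠ 0 := fun e => hR1 (congrArg Subtype.val e)
  have hs : s ∉ (ZMod p) ∙ r := by
    intro hmem
    obtain ⟨b, hb⟩ := Submodule.mem_span_singleton.mp hmem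
    obtain ⟨b, rfl⟩ := ZMod.intCast_surjective b
    rw [Int.cast_smul_eq_zsmul] at hb
    refine hS0 ?_
    rw [← (show b • R 1 = S from congrArg Subtype.val hb)]
    exact zsmul_mem (show R 1 ∈ N.red.E0 from hR0 1) b
  have hli : LinearIndependent (ZMod p) ![r, s] := by
    rw [linearIndependent_fin2]
    refine ⟨fun e => hs (by simp at e; rw [e]; exact zero_mem _), fun b e => ?_⟩
    simp at e
    rcases eq_or_ne b 0 with rfl | hb
    · exact hr (by simpa using e.symm)
    · exact hs (Submodule.mem_span_singleton.mpr ⟨b⁻¹, by rw [← e, inv_smul_smul₀ hb]⟩)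
  let b := basisOfLinearIndependentOfCardEqFinrank hli
    (by rw [Fintype.card_fin, (residualRep W p hΔ).finrank_eq])
  have hb0 : b 0 = r := by simp [b]
  have hb1 : b 1 = s := by simp [b]
  set f := (residualRep W p hΔ).ρ (σ * σ) with hf
  have e0 : f (b 0) = (a : ZMod p) • b 0 := by
    rw [hb0, Int.cast_smul_eq_zsmul]; exact Subtype.ext ha
  have e1 : f (b 1) = (c : ZMod p) • b 0 + b 1 := by
    rw [hb0, hb1, Int.cast_smul_eq_zsmul]
    exact Subtype.ext (show (σ * σ) • S = c • R 1 + S by rw [← hc, sub_add_cancel])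
  have hd : LinearMap.det f = (a : ZMod p) := by
    rw [← LinearMap.det_toMatrix b, Matrix.det_fin_two]
    simp [LinearMap.toMatrix_apply, e0, e1]
  have ht : LinearMap.trace (ZMod p) _ f = (a : ZMod p) + 1 := by
    rw [LinearMap.trace_eq_matrix_trace _ b, Matrix.trace_fin_two]
    simp [LinearMap.toMatrix_apply, e0, e1]
  have h1 : (AtP.matP W p hΔ (σ * σ)).det = 1 := by
    rw [AtP.matP_det, map_mul, hχ, one_mul, Units.val_one]
  have h2 : (AtP.matP W p hΔ (σ * σ)).det = (a : ZMod p) :=
    (LinearMap.det_toMatrix (AtP.matBasis W p hΔ) _).trans hd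
  exact ⟨by rw [AtP.matP_trace, ← hf, ht, ← h2, h1, one_add_one_eq_two], h1⟩

end Fermat.Agent.RT.Lift59.UnitRoot

end
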