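import Fermat.Agent.RT.AtP.Module
import Fermat.Agent.RT.MazurP.Eigen
import Fermat.Agent.GaloisReps.Characters

/-!
# Hecke polynomials which kill the eigen classes

The value of an eigenform at such an element lies in every maximal ideal of congruence.
-/

set_option autoImplicit false

noncomputable section

open AlgebraicCurve ModularCurve Matrix
open Fermat.Agent.GaloisReps

namespace Fermat.Agent.RT.Lift59.UnitRoot

open Fermat.Agent.RT.AtP

variable {N : ℕ} [NeZero N] {p : ℕ} [Fact p.Prime]

/-- A congruent eigenform gives a vector killed exactly by its ideal of congruence. -/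
theorem exists_exact_vector
    (θ : FullHecke N →+* integralClosure ℤ ℂ) (m : Ideal (integralClosure ℤ ℂ)) [hm : m.IsPrime]
    (hpm : (p : integralClosure ℤ ℂ) ∈ m) :
    ∃ w : Fin (2 * Gamma0.genus N) → ZMod (p ^ 1), ∀ t : FullHecke N,
      matIn (latticeMat N) (ZMod (p ^ 1)) t *ᵥ w = 0 ↔ θ t ∈ m := by
  classical
  have hp : p.Prime := Fact.out
  obtain ⟨w, hw0, hw⟩ := exists_kernel_vector θ m hpm
  let n : Ideal (FullHecke N) := Ideal.comap θ m
  refine ⟨w, fun t => ⟨fun ht => ?_, hw t⟩⟩
  -- the ideal is maximal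
  have hint := IntegralStructure.hasIntegralStructure N 2
  have := CuspForm.intLattice.moduleFinite (N := N)
  have := HeckeDuality.heckeAlgebra_finite_of_integralStructure (N := N) ∅ hint
  let χ : FullHecke N →+* (integralClosure ℤ ℂ ⧸ m) := (Ideal.Quotient.mk m).comp θ
  have : CharP (integralClosure ℤ ℂ ⧸ m) p := by
    refine (CharP.charP_iff_prime_eq_zero hp).mpr ?_
    rw [← map_natCast (Ideal.Quotient.mk m), Ideal.Quotient.eq_zero_iff_mem]
    exact hpm
  have : Finite χ.range := (MazurP.finite_range_of_charP p χ).to_subtype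
  have hn : n = RingHom.ker χ := by
    ext x
    rw [RingHom.mem_ker]
    exact (Ideal.Quotient.eq_zero_iff_mem (I := m)).symm
  have hmax : n.IsMaximal := by
    rw [hn, ← RingHom.ker_rangeRestrict]
    let _ := (Finite.isField_of_domain χ.range).toField
    exact RingHom.ker_isMaximal_of_surjective _ χ.rangeRestrict_surjective
  by_contra hnm
  obtain ⟨s, hs⟩ := hmax.exists_inv (show t ∉ n from hnm)
  obtain ⟨i, hi, hsi⟩ := hs
  refine hw0 ?_
  have h1 : matIn (latticeMat N) (ZMod (p ^ 1)) (s * t + i) *ᵥ w = w := by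
    rw [hsi, map_one, Matrix.one_mulVec]
  rw [map_add, map_mul, Matrix.add_mulVec, ← Matrix.mulVec_mulVec, ht, Matrix.mulVec_zero,
    hw i hi, add_zero] at h1
  exact h1.symm

/-- **An element killing the eigen classes takes its values in the congruence ideal.** -/
theorem mem_of_forall_kill {g : CuspForm (CongruenceSubgroup.Gamma0 N) 2}
    (θ : FullHecke N →+* integralClosure ℤ ℂ)
    (hθ : ∀ l (hl : l.Prime), (θ (HeckeDuality.heckeOp N 2 l hl) : ℂ) = ModularFormClass.qCoeff g l)
    (m : Ideal (integralClosure ℤ ℂ)) [hm : m.IsPrime] (hpm : (p : integralClosure ℤ ℂ) ∈ m)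
    (G : ℕ → Prop) (a : ℕ → ℕ)
    (hcong : ∀ l, l.Prime → G l → ∃ c : integralClosure ℤ ℂ,
      (c : ℂ) = ModularFormClass.qCoeff g l ∧ c - ((a l : ℤ) : integralClosure ℤ ℂ) ∈ m)
    (t : FullHecke N)
    (hkill : ∀ z : JTors N p 1, (z : JZero N) ∈ eigTors N p G a →
      matIn (latticeMat N) (ZMod (p ^ 1)) t *ᵥ (torsionIso N p (conjProperty N)).psi 1 z = 0) :
    θ t ∈ m := by
  obtain ⟨w, hw⟩ := exists_exact_vector θ m hpm
  set z := ((torsionIso N p (conjProperty N)).psi 1).symm w with hz
  have hzw : (torsionIso N p (conjProperty N)).psi 1 z = w := AddEquiv.apply_symm_apply _ _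
  refine (hw t).mp ?_
  rw [← hzw]
  exact hkill z ⟨by simpa using Pic0.mem_torsion.mp z.2,
    heckeOperatorBar_symm θ hθ m G a hcong fun s => (hw s).mpr⟩

end Fermat.Agent.RT.Lift59.UnitRoot

end
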