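import Fermat.Agent.RT.Lift59.UnitRoot.Connected
import Fermat.Agent.RT.Lift59.UnitRoot.Curve
import Fermat.Agent.RT.Lift59.UnitRoot.Eigen
import Fermat.Agent.RT.Lift59.Mazur.Forms
import Fermat.Agent.EichlerShimura.Specialization
import Fermat.Agent.FiniteFlat.TorsionInjective
import Fermat.Agent.GaloisReps.OfInjective

/-!
# The unit root at `p` of a congruent form of level prime to `p`

For a semistable model multiplicative at `p`, `a_p² ≡ 1` for every congruent eigenform of level
prime to `p`: on reductions `T_p` is Frobenius, whose square is unipotent on `E[p]` when it fixes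
`μ_p`, and every nonzero stable space of eigen classes has a class with nonzero reduction.
-/

set_option autoImplicit false
set_option synthInstance.maxHeartbeats 400000
set_option maxHeartbeats 4000000

noncomputable section

open WeierstrassCurve AlgebraicCurve ModularCurve Matrix
open Fermat.Agent.GaloisReps

namespace Fermat.Agent.RT.Lift59.UnitRoot

open Fermat.Agent.Arith Fermat.Agent.RT.AtP

section Classes

variable {p : ℕ} [Fact p.Prime] {L : ℕ} [NeZero L] {G : ℕ → Prop} {a : ℕ → ℕ}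

theorem heckeTors_psi (l : ℕ) (hl : l.Prime) (z : JTors L p 1) :
    (torsionIso L p (conjProperty L)).psi 1 (heckeTors 1 ⟨l, hl⟩ z) =
      matIn (latticeMat L) (ZMod (p ^ 1)) (HeckeDuality.heckeOp L 2 l hl) *ᵥ
        (torsionIso L p (conjProperty L)).psi 1 z := by
  rw [← TorsionIso.mat_mulVec, TorsionIso.mat_heckeTors, matIn_apply, latticeMat_heckeOp]

/-- Hecke operators commute on the points of order `p`. -/
theorem heckeOperatorBar_comm {x : JZero L} (hx : p • x = 0) (l m : Nat.Primes) :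
    heckeOperatorBar L l (heckeOperatorBar L m x) = heckeOperatorBar L m (heckeOperatorBar L l x) := by
  let z : JTors L p 1 := ⟨x, Pic0.mem_torsion.mpr (by rw [pow_one, natCast_zsmul]; exact hx)⟩
  obtain ⟨l, hl⟩ := l
  obtain ⟨m, hm⟩ := m
  have e : heckeTors 1 ⟨l, hl⟩ (heckeTors 1 ⟨m, hm⟩ z) =
      heckeTors 1 ⟨m, hm⟩ (heckeTors 1 ⟨l, hl⟩ z) := by
    apply ((torsionIso L p (conjProperty L)).psi 1).injective
    rw [heckeTors_psi, heckeTors_psi, heckeTors_psi, heckeTors_psi,
      Matrix.mulVec_mulVec, Matrix.mulVec_mulVec, ← map_mul, ← map_mul, mul_comm (HeckeDuality.heckeOp L 2 l hl)]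
  exact congrArg Subtype.val e

variable (p L G a) in
/-- `T_p` on the eigen classes. -/
def heckeP : Module.End (ZMod p) (eigTors L p G a) :=
  AddMonoidHom.toZModLinearMap p
    ({ toFun := fun x => ⟨heckeOperatorBar L ⟨p, Fact.out⟩ x.1, by
          rw [← map_nsmul, x.2.1, map_zero], fun l hl hG => by
          rw [heckeOperatorBar_comm x.2.1, x.2.2 l hl hG, map_nsmul]⟩
       map_zero' := Subtype.ext (map_zero _)
       map_add' := fun x y => Subtype.ext (map_add _ x.1 y.1) } :
      eigTors L p G a →+ eigTors L p G a)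

theorem coe_heckeP (x : eigTors L p G a) :
    ((heckeP p L G a x : eigTors L p G a) : JZero L) = heckeOperatorBar L ⟨p, Fact.out⟩ x.1 := rfl

theorem eigRep_heckeP (σ : GQ) :
    eigRep L p G a σ * heckeP p L G a = heckeP p L G a * eigRep L p G a σ :=
  LinearMap.ext fun x => Subtype.ext (galois_heckeOperatorBar L ⟨p, Fact.out⟩ σ x.1)

variable {A : ValuationSubring QBar}

/-- On reductions, `T_p` is Frobenius. -/
theorem reduction_heckeP_pow (hA : A.LiesOverPrime p) (hpL : ¬ p ∣ L) {σ : GQ}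
    (hσ : A.IsFrobeniusAt σ p) :
    ∀ (n : ℕ) (x : eigTors L p G a), reductionModL A L (((heckeP p L G a ^ n) x : _) : JZero L) =
      reductionModL A L (((eigRep L p G a σ ^ n) x : _) : JZero L) := by
  have hp : p.Prime := Fact.out
  have : NeZero p := ⟨hp.ne_zero⟩
  have := residueField_charP hA hp
  have := residueField_isAlgClosed A
  have hNA := EichlerShimura.natCast_ne_zero hp hpL hA
  intro n
  induction n with
  | zero => intro x; rfl
  | succ n ih =>
    intro x
    have h1 : ∀ y : eigTors L p G a, reductionModL A L (heckeP p L G a y : JZero L) =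
        reductionModL A L (σ • (y : JZero L)) := fun y => by
      rw [coe_heckeP, EichlerShimura.reductionModL_hecke hNA hpL,
        EichlerShimura.reductionModL_frobenius hNA hσ]
      conv_rhs => rw [← add_zero (EichlerShimura.coeffAut L _ • reductionModL A L (y : JZero L))]
      congr 1
      rw [smul_comm, ← map_nsmul, y.2.1, map_zero]
      exact map_zero (DistribSMul.toAddMonoidHom (JZeroC (IsLocalRing.ResidueField A) L)
        (EichlerShimura.coeffAut L (EichlerShimura.frobRing A p))⁻¹)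
    have hs : ∀ f : Module.End (ZMod p) (eigTors L p G a), (f ^ (n + 1)) x = f ((f ^ n) x) :=
      fun f => by rw [pow_succ', Module.End.mul_apply]
    rw [hs, hs, h1, EichlerShimura.reductionModL_frobenius hNA hσ, ih,
      ← EichlerShimura.reductionModL_frobenius hNA hσ]
    rfl

/-- `T_p² - 1` is nilpotent on the eigen classes. -/
theorem exists_pow_eq_zero (hA : A.LiesOverPrime p) (hp2 : p ≠ 2) (hpL : ¬ p ∣ L)
    (r : GQ →* Matrix (Fin 2) (Fin 2) (ZMod p))
    (hspan : Submodule.span (ZMod p) (Set.range r) = ⊤)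
    (hdet : ∀ σ, (r σ).det = (cyclotomicHom p σ : ZMod p))
    (hin : ∀ τ ∈ A.inertiaSubgroupIn ℚ, (r τ).trace = (r τ).det + 1)
    (hquad : ∀ g (v : eigTors L p G a), eigRep L p G a g (eigRep L p G a g v) -
      (r g).trace • eigRep L p G a g v + (r g).det • v = 0)
    {σ : GQ} (hσ : A.IsFrobeniusAt σ p) (hσr : (r (σ * σ)).trace = 2 ∧ (r (σ * σ)).det = 1) :
    ∃ k : ℕ, (heckeP p L G a ^ 2 - 1) ^ k = 0 := by
  set T := heckeP p L G a
  set S := T ^ 2 - 1 with hS
  obtain ⟨k, hk⟩ := monotone_stabilizes_iff_artinian.mpr inferInstance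
    ⟨fun n => OrderDual.toDual (LinearMap.range (S ^ n)), fun m n h => by
      rintro _ ⟨x, rfl⟩
      obtain ⟨j, rfl⟩ := Nat.exists_eq_add_of_le h
      exact ⟨(S ^ j) x, by rw [← Module.End.mul_apply, ← pow_add]⟩⟩
  refine ⟨k, ?_⟩
  by_contra hne
  have hst : ∀ g, Commute (eigRep L p G a g) S := fun g => by
    rw [hS]
    exact ((show Commute (eigRep L p G a g) T from eigRep_heckeP g).pow_right 2).sub_right
      (Commute.one_right _)
  obtain ⟨v, hv, hvne⟩ := exists_reduction_ne_zero hA hp2 hpL r hspan hdet hin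
    (LinearMap.range (S ^ k))
    (fun g v hv => by
      obtain ⟨x, rfl⟩ := hv
      refine ⟨eigRep L p G a g x, ?_⟩
      rw [← Module.End.mul_apply, ← Module.End.mul_apply, ((hst g).pow_right k).eq])
    (fun h => hne (LinearMap.range_eq_bot.mp h)) fun g v _ => hquad g v
  rw [show LinearMap.range (S ^ k) = LinearMap.range (S ^ (k + 2)) from
    congrArg OrderDual.ofDual (hk (k + 2) (Nat.le_add_right k 2))] at hv
  obtain ⟨x, rfl⟩ := hv
  refine hvne ?_
  rw [show S ^ (k + 2) = S ^ 2 * S ^ k by rw [← pow_add, add_comm], Module.End.mul_apply]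
  suffices key : ∀ y : eigTors L p G a,
      reductionModL A L ((((S ^ 2) y : eigTors L p G a)) : JZero L) = 0 from key _
  intro y
  have h := hquad (σ * σ) y
  rw [hσr.1, hσr.2, one_smul] at h
  have hE : eigRep L p G a (σ * σ) = eigRep L p G a σ ^ 2 := by rw [map_mul, pow_two]
  rw [hE, ← Module.End.mul_apply, ← pow_add] at h
  have e : (S ^ 2) y = (T ^ (2 + 2)) y - (2 : ZMod p) • (T ^ 2) y + y := by
    rw [show S ^ 2 = T ^ (2 + 2) - (2 : ZMod p) • T ^ 2 + 1 by
      rw [hS, two_smul]; simp only [pow_succ, pow_zero]; noncomm_ring]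
    simp
  have hsum := congrArg (fun z : eigTors L p G a => reductionModL A L (z : JZero L)) h
  rw [e]
  simp only [AddSubgroup.coe_add, AddSubgroupClass.coe_sub, map_add, map_sub, two_smul,
    ZeroMemClass.coe_zero, map_zero] at hsum ⊢
  rw [reduction_heckeP_pow hA hpL hσ, reduction_heckeP_pow hA hpL hσ]
  exact hsum

end Classes

variable {W : WeierstrassCurve ℤ} {p : ℕ} [Fact p.Prime]

/-- A Frobenius element at `p` fixing the `p`-th roots of unity. -/
theorem exists_frobenius_cyclotomic_one {A : ValuationSubring QBar} (hA : A.LiesOverPrime p) :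
    ∃ σ : GQ, A.IsFrobeniusAt σ p ∧ cyclotomicHom p σ = 1 := by
  obtain ⟨σ, hσ⟩ := exists_isFrobeniusAt hA (Fact.out : p.Prime)
  obtain ⟨τ, hτ, hχ⟩ :=
    EC.Rep.exists_mem_inertia_cyclotomicHom_eq hA (cyclotomicHom p σ)⁻¹
  exact ⟨σ * τ, isFrobeniusAt_mul_inertia hσ hτ, by rw [map_mul, hχ, mul_inv_cancel]⟩

/-- **`a_p² ≡ 1` for a congruent eigenform of level prime to `p`.** -/
theorem sq_sub_one_mem (hset : Setting W p) (hdvd : (p : ℤ) ∣ W.Δ) {L : ℕ} [NeZero L]
    (hpL : ¬ p ∣ L) {g : CuspForm (CongruenceSubgroup.Gamma0 L) 2} (hg : g.IsNormalizedEigenform)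
    (m : Ideal (integralClosure ℤ ℂ)) [m.IsPrime] (hpm : (p : integralClosure ℤ ℂ) ∈ m)
    (T : Finset ℕ)
    (hcong : ∀ l : ℕ, l.Prime → l ∉ T → ∃ c : integralClosure ℤ ℂ,
      (c : ℂ) = ModularFormClass.qCoeff g l ∧
        c - ((W.apOfModel l : ℤ) : integralClosure ℤ ℂ) ∈ m)
    {c : integralClosure ℤ ℂ} (hc : (c : ℂ) = ModularFormClass.qCoeff g p) : c ^ 2 - 1 ∈ m := by
  classical
  have hp : p.Prime := Fact.out
  have hp2 : p ≠ 2 := hset.hp.2
  have hc₄ := hset.hW p hp hdvd
  set S : Finset ℕ := T ∪ insert p (L.primeFactors ∪ W.Δ.natAbs.primeFactors) with hS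
  set G : ℕ → Prop := fun l => l ∉ S with hG
  set a : ℕ → ℕ := fun l => (W.apOfModel l : ZMod p).val with ha
  have hacast : ∀ l, (a l : ZMod p) = (W.apOfModel l : ZMod p) := fun l => by
    rw [ha]; exact ZMod.natCast_zmod_val _
  have hSout : ∀ l : ℕ, l.Prime → l ∉ S → l ∉ T ∧ l ≠ p ∧ ¬ l ∣ L ∧ W.IsGoodPrimeFor l := by
    intro l hl h
    simp only [hS, Finset.mem_insert, Finset.mem_union, not_or] at h
    exact ⟨h.1, h.2.1, fun hd => h.2.2.1 (Nat.mem_primeFactors.mpr ⟨hl, hd, NeZero.ne _⟩),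
      fun hd => h.2.2.2 (Nat.mem_primeFactors.mpr
        ⟨hl, Int.natCast_dvd.mp hd, Int.natAbs_ne_zero.mpr hset.hΔ⟩)⟩
  obtain ⟨A, hA⟩ := exists_liesOverPrime hp
  obtain ⟨σ, hσ, hχ⟩ := exists_frobenius_cyclotomic_one hA
  have hquad := eigRep_quadratic (N := L) (p := p) (G := G) (a := a)
    (GaloisReps.congruenceProperty_all (fun N _ => FiniteFlat.injectiveOnTorsion_of_lattice N) L p)
    (fun l hl hlS h => (hl.dvd_mul.mp h).elim (hSout l hl hlS).2.2.1
      fun h' => (hSout l hl hlS).2.1 ((Nat.prime_dvd_prime_iff_eq hl hp).mp h'))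
    S (fun l _ h => h) (AtP.matP W p hset.hΔ) (AtP.matP_finiteLevel hset.hΔ)
    (fun l hl hlS A' hA' τ hτ => by
      obtain ⟨h1, h2⟩ := AtP.matP_frobenius hset.hΔ hl (hSout l hl hlS).2.2.2
        (hSout l hl hlS).2.1 hA' hτ
      exact ⟨by rw [h1, hacast], h2⟩)
  obtain ⟨k, hk⟩ := exists_pow_eq_zero hA hp2 hpL (AtP.matP W p hset.hΔ)
    (AtP.matP_span hset.hΔ hp2 hset.hirr) (AtP.matP_det hset.hΔ)
    (AtP.matP_inertia_of_mult hset.hΔ hA hp2 hdvd hc₄) hquad hσ
    (matP_sq_of_frobenius hA hp2 hset.hΔ hdvd hc₄ hσ hχ)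
  obtain ⟨θ, hθ⟩ := GaloisReps.exists_eigenform_character hg
  set t := HeckeDuality.heckeOp L 2 p hp
  have hcongG : ∀ l, l.Prime → G l → ∃ c : integralClosure ℤ ℂ,
      (c : ℂ) = ModularFormClass.qCoeff g l ∧ c - ((a l : ℤ) : integralClosure ℤ ℂ) ∈ m := by
    intro l hl hlS
    obtain ⟨c, hc, hcm⟩ := hcong l hl (hSout l hl hlS).1
    exact ⟨c, hc, RT.AtP.sub_intCast_mem hpm (by exact_mod_cast hacast l) hcm⟩
  have hmem : θ ((t ^ 2 - 1) ^ k) ∈ m := by
    refine mem_of_forall_kill θ hθ m hpm G a hcongG _ fun z hz => ?_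
    have key : ∀ (n : ℕ) (x : eigTors L p G a) (zx : JTors L p 1), (zx : JZero L) = (x : JZero L) →
        ∀ zy : JTors L p 1, (zy : JZero L) = ((((heckeP p L G a ^ 2 - 1 :
            Module.End (ZMod p) (eigTors L p G a)) ^ n) x : eigTors L p G a) : JZero L) →
        matIn (latticeMat L) (ZMod (p ^ 1)) ((t ^ 2 - 1) ^ n) *ᵥ
            (torsionIso L p (conjProperty L)).psi 1 zx =
          (torsionIso L p (conjProperty L)).psi 1 zy := by
      intro n
      induction n with
      | zero =>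
        intro x zx hzx zy hzy
        rw [pow_zero, map_one, Matrix.one_mulVec, show zy = zx from Subtype.ext (hzy.trans hzx.symm)]
      | succ n ih =>
        intro x zx hzx zy hzy
        let zm : JTors L p 1 := heckeTors 1 ⟨p, hp⟩ (heckeTors 1 ⟨p, hp⟩ zx) - zx
        have hzm : (zm : JZero L) = (((heckeP p L G a ^ 2 - 1 :
            Module.End (ZMod p) (eigTors L p G a)) x : eigTors L p G a) : JZero L) := by
          show heckeOperatorBar L ⟨p, hp⟩ (heckeOperatorBar L ⟨p, hp⟩ (zx : JZero L)) - (zx : JZero L) = _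
          rw [hzx, pow_two (heckeP p L G a), LinearMap.sub_apply, Module.End.mul_apply,
            Module.End.one_apply, AddSubgroupClass.coe_sub, coe_heckeP, coe_heckeP]
        rw [pow_succ (t ^ 2 - 1), map_mul, ← Matrix.mulVec_mulVec, map_sub _ (t ^ 2), map_one,
          Matrix.sub_mulVec, Matrix.one_mulVec, pow_two t, map_mul, ← Matrix.mulVec_mulVec,
          ← heckeTors_psi, ← heckeTors_psi, ← map_sub]
        refine ih ((heckeP p L G a ^ 2 - 1 : Module.End (ZMod p) (eigTors L p G a)) x) zm hzm zy ?_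
        rw [hzy, pow_succ (heckeP p L G a ^ 2 - 1 : Module.End (ZMod p) (eigTors L p G a)),
          Module.End.mul_apply]
    let x : eigTors L p G a := ⟨(z : JZero L), hz⟩
    rw [key k x z rfl 0 (by rw [hk]; rfl), map_zero]
  rw [map_pow, map_sub, map_pow, map_one, show θ t = c from Subtype.ext ((hθ p hp).trans hc.symm)]
    at hmem
  exact Ideal.IsPrime.mem_of_pow_mem inferInstance _ hmem

/-- The same for a congruent form with values in an algebraically closed field. -/
theorem sq_map_qCoeff_eq_one (hset : Setting W p) (hdvd : (p : ℤ) ∣ W.Δ) {L : ℕ} [NeZero L]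
    (hpL : ¬ p ∣ L) {k : Type} [Field k] [Algebra (ZMod p) k]
    {g : CuspForm (CongruenceSubgroup.Gamma0 L) 2} (hg : g.IsNormalizedEigenform)
    (φ : integralClosure ℤ ℂ →+* AlgebraicClosure k) (T : Finset ℕ)
    (hout : ∀ l : ℕ, l.Prime → l ∉ T → ∀ b : integralClosure ℤ ℂ,
      (b : ℂ) = ModularFormClass.qCoeff g l → φ b = algebraMap k _ (wAbar W k l))
    {c : integralClosure ℤ ℂ} (hc : (c : ℂ) = ModularFormClass.qCoeff g p) : φ c ^ 2 = 1 := by
  have hpk : CharP k p := charP_of_injective_algebraMap (algebraMap (ZMod p) k).injective p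
  have : CharP (AlgebraicClosure k) p :=
    charP_of_injective_algebraMap (algebraMap k (AlgebraicClosure k)).injective p
  have := RingHom.ker_isPrime φ
  obtain ⟨θ, hθ⟩ := GaloisReps.exists_eigenform_character hg
  have h := sq_sub_one_mem hset hdvd hpL hg (RingHom.ker φ)
    (by rw [RingHom.mem_ker, map_natCast]; exact CharP.cast_eq_zero _ _) T
    (fun l hl hlT => ⟨θ (HeckeDuality.heckeOp L 2 l hl), hθ l hl, by
      rw [RingHom.mem_ker, map_sub, hout l hl hlT _ (hθ l hl), wAbar, map_intCast, map_intCast,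
        sub_self]⟩) hc
  rwa [RingHom.mem_ker, map_sub, map_pow, map_one, sub_eq_zero] at h

end Fermat.Agent.RT.Lift59.UnitRoot

end
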