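import Fermat.Agent.RT.AtP.Module
import Fermat.Agent.RT.Mazur.Residual
import Fermat.Agent.RT.MazurP.LocalE
import Fermat.Agent.CFT.TWPrimes.Mat
import Fermat.Agent.RT.Lift59.AtP.LocalFlat
import Fermat.Agent.OrdinaryAtP.Conn.Main
import Fermat.Agent.FiniteFlat.TorsionOrder

/-!
# Some eigen class does not reduce to zero

A stable space of eigen classes of order `p` at a level prime to `p`, for a representation with
inertia trace `χ + 1` at `p`, contains a nonzero fixed class of inertia or has a nonzero invariant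
map to `ℤ/p`. Neither exists when all of its classes reduce to zero, by the Galois order.
-/

set_option autoImplicit false
set_option linter.style.haveILetI false

noncomputable section

namespace Fermat.Agent.RT.Lift59.UnitRoot

open ModularCurve Fermat.Agent.Arith
open Fermat.Agent.RT.Mazur Fermat.Agent.RT.MazurP Fermat.Agent.RT.AtP

section Linear

variable {p : ℕ} [Fact p.Prime] {V : Type*} [AddCommGroup V] [Module (ZMod p) V]

/-- An inertia stable subspace with a nonzero invariant functional. -/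
def HasInvariantMap (I : Subgroup GQ) (ψ : GQ →* Module.End (ZMod p) V)
    (H : Submodule (ZMod p) V) : Prop :=
  (∀ τ ∈ I, ∀ v ∈ H, ψ τ v ∈ H) ∧ ∃ π : H →ₗ[ZMod p] ZMod p, π ≠ 0 ∧
    ∀ τ ∈ I, ∀ v w : H, (w : V) = ψ τ (v : V) → π w = π v

variable [Finite V]

/-- A fixed class or an invariant functional. -/
theorem exists_invariantMap {A : ValuationSubring QBar} (hA : A.LiesOverPrime p) (hp2 : p ≠ 2)
    (ψ : GQ →* Module.End (ZMod p) V) (r : GQ →* Matrix (Fin 2) (Fin 2) (ZMod p))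
    (hspan : Submodule.span (ZMod p) (Set.range r) = ⊤)
    (hdet : ∀ σ, (r σ).det = (cyclotomicHom p σ : ZMod p))
    (hin : ∀ τ ∈ A.inertiaSubgroupIn ℚ, (r τ).trace = (r τ).det + 1)
    (V₁ : Submodule (ZMod p) V) (h₁ : IsStableUnder ψ V₁) (h₁0 : V₁ ≠ ⊥)
    (hquad : ∀ g, ∀ v ∈ V₁, ψ g (ψ g v) - (r g).trace • ψ g v + (r g).det • v = 0) :
    ∃ H ≤ V₁, HasInvariantMap (A.inertiaSubgroupIn ℚ) ψ H := by
  classical
  have hp : p.Prime := Fact.out
  set I := A.inertiaSubgroupIn ℚ
  obtain ⟨U, hle, hU0, hU, htriv, hnon⟩ := exists_submodule_kernel ψ r hspan V₁ h₁ h₁0 hquad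
  obtain ⟨τ, hτI, hprim, -, hgen⟩ := exists_tame_generator hA
  set a : ZMod p := (cyclotomicHom p τ : ZMod p) with ha
  have ha1 : a ≠ 1 := fun h => by
    have h' := Nat.le_of_dvd Nat.one_pos (hprim 1 (by rw [pow_one]; exact h))
    have := hp.two_le
    omega
  have htr : (r τ).trace = a + 1 := by rw [hin τ hτI, hdet]
  have hmul : ∀ g h v, ψ (g * h) v = ψ g (ψ h v) := fun g h v => by rw [map_mul]; rfl
  have hτnon : ∀ c : ZMod p, r τ ≠ c • 1 := fun c hc => ha1 (by
    have h2 := hdet τ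
    rw [hc, Matrix.trace_smul, Matrix.trace_one, Fintype.card_fin, smul_eq_mul] at htr
    rw [hc, Matrix.det_smul, Matrix.det_one, mul_one, Fintype.card_fin, ← ha] at h2
    push_cast at htr
    refine sub_eq_zero.mp (sq_eq_zero_iff.mp ?_)
    linear_combination 4 * h2 - (c * 2 + a + 1) * htr)
  have hTq : ∀ v ∈ U, ψ τ (ψ τ v) = (a + 1) • ψ τ v - a • v := fun v hv => by
    have h := hquad τ v (hle hv)
    rw [htr, hdet, ← ha] at h
    linear_combination (norm := module) h
  -- the kernel of the cyclotomic character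
  set K := tameKer A p
  have hnil : ∀ k ∈ K, (r k - 1).trace = 0 ∧ (r k - 1).det = 0 := by
    intro k hk
    obtain ⟨hkI, hk1⟩ := mem_tameKer.mp hk
    have hd : (r k).det = 1 := by rw [hdet, hk1, Units.val_one]
    have ht := hin k hkI
    rw [hd] at ht
    refine ⟨by rw [Matrix.trace_sub, ht, Matrix.trace_one, Fintype.card_fin]; push_cast; ring, ?_⟩
    rw [Matrix.trace_fin_two] at ht
    rw [Matrix.det_fin_two] at hd
    simp [Matrix.det_fin_two, Matrix.sub_apply]
    linear_combination hd - ht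
  have hsq : ∀ k ∈ K, ∀ k' ∈ K, ∀ v ∈ U, ψ k' (ψ k v - v) = ψ k v - v := by
    intro k hk k' hk' v hv
    by_cases h0 : r k = 1
    · rw [htriv k h0 v hv, sub_self, map_zero]
    obtain ⟨n, hn⟩ : ∃ n : ℕ, r k' = r (k ^ n) := by
      have hN : r k - 1 ≠ 0 := sub_ne_zero.mpr h0
      have hprod : ((r k - 1) * (r k' - 1)).trace = 0 := by
        have h1 := (hnil _ (K.mul_mem hk hk')).1
        rw [map_mul, show r k * r k' - 1 =
          (r k - 1) * (r k' - 1) + ((r k - 1) + (r k' - 1)) by noncomm_ring,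
          Matrix.trace_add, Matrix.trace_add, (hnil k hk).1, (hnil k' hk').1] at h1
        simpa using h1
      obtain ⟨c, hc⟩ := AtP.exists_smul_of_nilpotent (r k - 1) (r k' - 1) hN (hnil k hk).1
        (hnil k hk).2 (hnil k' hk').1 (hnil k' hk').2 hprod
      have hpow : ∀ n : ℕ, r (k ^ n) = 1 + n • (r k - 1) := fun n => by
        rw [← Nat.cast_smul_eq_nsmul (ZMod p), ← CFT.TWPrimes.pow_one_add
          (CFT.TWPrimes.sq_zero_of_trace_det (hnil k hk).1 (hnil k hk).2), add_sub_cancel, map_pow]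
      exact ⟨c.val, by rw [hpow, ← Nat.cast_smul_eq_nsmul (ZMod p), ZMod.natCast_zmod_val, ← hc,
        add_sub_cancel]⟩
    set w := ψ k v - v
    have hwU : w ∈ U := U.sub_mem (hU k v hv) hv
    have hfix : ψ k w = w := by
      obtain ⟨hkI, hk1⟩ := mem_tameKer.mp hk
      have h := hquad k v (hle hv)
      rw [hdet, hk1, hin k hkI, hdet, hk1, Units.val_one, one_smul] at h
      rw [map_sub]
      linear_combination (norm := module) h
    have hfixn : ∀ n : ℕ, ψ (k ^ n) w = w := fun n => by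
      induction n with
      | zero => rw [pow_zero, map_one]; rfl
      | succ n ih => rw [pow_succ, hmul, hfix, ih]
    have h1 : ψ ((k ^ n)⁻¹ * k') w = w := by
      refine htriv _ ?_ w hwU
      rw [map_mul, hn, ← map_mul, inv_mul_cancel, map_one]
    rw [show k' = k ^ n * ((k ^ n)⁻¹ * k') by group, hmul, h1, hfixn]
  have hdec : ∀ g ∈ I, ∃ i : ℕ, ∃ k ∈ K, g = τ ^ i * k := fun g hg =>
    (hgen g hg).imp fun i hi => ⟨_, hi, by group⟩
  by_cases hfix : ∃ v ∈ U, v ≠ 0 ∧ ψ τ v = v ∧ ∀ k ∈ K, ψ k v = v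
  · obtain ⟨v, hv, hv0, hτv, hKv⟩ := hfix
    have hIv : ∀ g ∈ I, ψ g v = v := by
      intro g hg
      obtain ⟨i, k, hk, rfl⟩ := hdec g hg
      rw [hmul, hKv k hk]
      induction i with
      | zero => rw [pow_zero, map_one]; rfl
      | succ i ih => rw [pow_succ, hmul, hτv, ih (mul_mem (pow_mem hτI i) (mem_tameKer.mp hk).1)]
    refine ⟨(ZMod p) ∙ v, (Submodule.span_singleton_le_iff_mem _ _).mpr (hle hv), fun g hg x hx => ?_,
      ?_⟩
    · obtain ⟨c, rfl⟩ := Submodule.mem_span_singleton.mp hx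
      rw [map_smul, hIv g hg]
      exact hx
    · let e := LinearEquiv.toSpanNonzeroSingleton (ZMod p) V v hv0
      refine ⟨e.symm.toLinearMap, fun h => one_ne_zero (α := ZMod p) ?_, fun g hg x y hxy => ?_⟩
      · have := LinearMap.congr_fun h (e 1)
        simp at this
      · obtain ⟨c, hc⟩ := Submodule.mem_span_singleton.mp x.2
        refine congrArg _ (Subtype.ext ?_)
        rw [hxy, ← hc, map_smul, hIv g hg]
  push Not at hfix
  -- the projection to the classes fixed by `τ`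
  let T : U →ₗ[ZMod p] U := (ψ τ).restrict (hU τ)
  let P : U →ₗ[ZMod p] U := T - a • LinearMap.id
  have hPco : ∀ y : U, (P y : V) = ψ τ (y : V) - a • (y : V) := fun y => rfl
  have hPτ : ∀ y : U, ψ τ (P y : V) = (P y : V) := fun y => by
    rw [hPco, map_sub, map_smul, hTq _ y.2]
    module
  have hτK : ∀ v ∈ U, (∀ k ∈ K, ψ k v = v) → ∀ k ∈ K, ψ k (ψ τ v) = ψ τ v :=
    fun v _ hv k hk => by
      rw [← hmul, show k * τ = τ * (τ⁻¹ * k * τ) by group, hmul,
        hv _ (conj_mem_tameKer hτI hk)]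
  have hPK : ∀ k ∈ K, ∀ y z : U, (z : V) = ψ k (y : V) → P z = P y := by
    intro k hk y z hz
    rw [← sub_eq_zero, ← map_sub]
    by_contra hne
    set d : U := z - y with hd
    have hdK : ∀ k' ∈ K, ψ k' (d : V) = d := fun k' hk' => by
      rw [hd, AddSubgroupClass.coe_sub, hz, hsq k hk k' hk' _ y.2]
    obtain ⟨k', hk', hne'⟩ := hfix _ (P d).2 (fun h => hne (Subtype.ext h)) (hPτ d)
    refine hne' ?_
    rw [hPco, map_sub, map_smul, hτK _ d.2 hdK k' hk', hdK k' hk']
  have hP0 : P ≠ 0 := by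
    intro h
    obtain ⟨v, hv, hvne⟩ := hnon τ hτnon a
    refine hvne (sub_eq_zero.mp ?_)
    have := congrArg Subtype.val (LinearMap.congr_fun h ⟨v, hv⟩)
    rwa [hPco] at this
  obtain ⟨y₀, hy₀⟩ : ∃ y, P y ≠ 0 := by
    by_contra h
    push Not at h
    exact hP0 (LinearMap.ext h)
  obtain ⟨f, hf⟩ := Module.Projective.exists_dual_ne_zero (ZMod p) hy₀
  refine ⟨U, hle, fun g _ => hU g, f ∘ₗ P, fun h => hf (LinearMap.congr_fun h y₀),
    fun g hg x y hxy => congrArg f ?_⟩
  obtain ⟨i, k, hk, rfl⟩ := hdec g hg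
  let z : U := ⟨ψ k (x : V), hU k _ x.2⟩
  refine Eq.trans ?_ (hPK k hk x z rfl)
  rw [hmul] at hxy
  have hpow : ∀ (j : ℕ) (u u' : U), (u' : V) = ψ (τ ^ j) (u : V) → P u' = P u := by
    intro j
    induction j with
    | zero =>
      intro u u' h
      rw [pow_zero, map_one] at h
      rw [show u' = u from Subtype.ext h]
    | succ j ih =>
      intro u u' h
      rw [pow_succ', hmul] at h
      let w : U := ⟨ψ (τ ^ j) (u : V), hU _ _ u.2⟩
      refine Eq.trans (Subtype.ext ?_) (ih u w rfl)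
      rw [hPco, hPco, h, hTq _ w.2]
      module
  exact hpow i z y hxy

end Linear

variable {p : ℕ} [Fact p.Prime] {L : ℕ} [NeZero L] {G : ℕ → Prop} {a : ℕ → ℕ}
  {A : ValuationSubring QBar}

/-- **Some class of a nonzero stable space does not reduce to zero.** -/
theorem exists_reduction_ne_zero (hA : A.LiesOverPrime p) (hp2 : p ≠ 2) (hpL : ¬ p ∣ L)
    (r : GQ →* Matrix (Fin 2) (Fin 2) (ZMod p))
    (hspan : Submodule.span (ZMod p) (Set.range r) = ⊤)
    (hdet : ∀ σ, (r σ).det = (cyclotomicHom p σ : ZMod p))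
    (hin : ∀ τ ∈ A.inertiaSubgroupIn ℚ, (r τ).trace = (r τ).det + 1)
    (V₁ : Submodule (ZMod p) (eigTors L p G a)) (h₁ : IsStableUnder (eigRep L p G a) V₁)
    (h₁0 : V₁ ≠ ⊥)
    (hquad : ∀ g, ∀ v ∈ V₁, eigRep L p G a g (eigRep L p G a g v) -
      (r g).trace • eigRep L p G a g v + (r g).det • v = 0) :
    ∃ v ∈ V₁, reductionModL A L (v : JZero L) ≠ 0 := by
  classical
  by_contra hcon
  push Not at hcon
  set ψ := eigRep L p G a
  obtain ⟨H, hle, hstab, π, hπ0, hπ⟩ :=
    exists_invariantMap hA hp2 ψ r hspan hdet hin V₁ h₁ h₁0 hquad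
  let : DistribMulAction GQ (eigTors L p G a) :=
    { smul := fun σ v => ψ σ v
      one_smul := fun v => by show ψ 1 v = v; rw [map_one]; rfl
      mul_smul := fun σ τ v => by
        show ψ (σ * τ) v = ψ σ (ψ τ v); rw [map_mul]; rfl
      smul_zero := fun σ => map_zero (ψ σ)
      smul_add := fun σ => map_add (ψ σ) }
  obtain ⟨O, hO⟩ := FiniteFlat.exists_galOrder_of_finite (Fact.out : p.Prime) hpL hA
    (eigTors L p G a).subtype Subtype.val_injective fun g x => coe_eigRep g x
  let act : A.inertiaSubgroupIn ℚ → H → H := fun τ v => ⟨ψ τ v, hstab τ τ.2 v v.2⟩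
  let Ψ : H →+ eigTors L p G a × eigTors L p G a :=
    (AddMonoidHom.inl _ _).comp H.subtype.toAddMonoidHom
  have h := OrdinaryAtP.Conn.eq_zero_of_congruent hA hp2 O act Ψ π.toAddMonoidHom
    (fun y hy => by
      have : (y : eigTors L p G a) = 0 := (Prod.ext_iff.mp hy).1
      rw [show y = 0 from Subtype.ext this, map_zero])
    (fun τ y => Prod.ext rfl (map_zero (ψ (τ : GQ))).symm)
    (fun τ y => hπ τ τ.2 y (act τ y) rfl) (fun y f hf => ⟨hO f hf _ _ ?_, hO f hf _ _ rfl⟩)
  · exact hπ0 (LinearMap.ext fun y => DFunLike.congr_fun h y)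
  · show reductionModL A L ((y : eigTors L p G a) : JZero L) = reductionModL A L ((0 : eigTors L p G a) : JZero L)
    rw [hcon _ (hle y.2), ZeroMemClass.coe_zero, map_zero]

end Fermat.Agent.RT.Lift59.UnitRoot

end
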